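import Fermat.Agent.X0.Ree

/-!
# S21, algebraic half: Shapiro cocycles and the dimension bound for parabolic homomorphisms
-/

set_option autoImplicit false
set_option linter.unusedSectionVars false

namespace Fermat.Agent.S21

open Fermat.Agent.X0 Module

section General

variable {G : Type*} [Group G] (H : Subgroup G) (K : Type*) [Field K]

/-- the chosen representative of a coset -/
noncomputable def shRep (x : G ⧸ H) : G := Quotient.out x

lemma shRep_mk (x : G ⧸ H) : ((shRep H x : G) : G ⧸ H) = x := QuotientGroup.out_eq' x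

/-- the `H`-valued "cocycle" -/
noncomputable def shK (g : G) (x : G ⧸ H) : G := (shRep H x)⁻¹ * g * shRep H (g⁻¹ • x)

lemma shK_mem (g : G) (x : G ⧸ H) : shK H g x ∈ H := by
  unfold shK
  rw [mul_assoc, ← QuotientGroup.eq, shRep_mk]
  have : ((g * shRep H (g⁻¹ • x) : G) : G ⧸ H) = g • ((shRep H (g⁻¹ • x) : G) : G ⧸ H) := rfl
  rw [this, shRep_mk, smul_inv_smul]

lemma shK_mul (g h : G) (x : G ⧸ H) : shK H (g * h) x = shK H g x * shK H h (g⁻¹ • x) := by
  unfold shK
  rw [mul_inv_rev, mul_smul]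
  group

/-- the action of `g` on functions on `G ⧸ H` -/
noncomputable def shP (g : G) : ((G ⧸ H) → K) →ₗ[K] ((G ⧸ H) → K) :=
  reeP K (MulAction.toPerm g)

lemma shP_apply (g : G) (m : (G ⧸ H) → K) (x : G ⧸ H) : shP H K g m x = m (g⁻¹ • x) := rfl

lemma shP_mul (g h : G) : shP H K (g * h) = shP H K g * shP H K h := by
  unfold shP
  rw [← reeP_mul]
  congr 1
  exact map_mul (MulAction.toPermHom G (G ⧸ H)) g h

lemma shP_one : shP H K (1 : G) = 1 := by
  ext m x
  simp [shP_apply]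

/-- the Shapiro cocycle attached to a homomorphism `ψ : H → K`, linear in `ψ` -/
noncomputable def shC (g : G) : (Additive H →+ K) →ₗ[K] ((G ⧸ H) → K) where
  toFun ψ x := ψ (Additive.ofMul ⟨shK H g x, shK_mem H g x⟩)
  map_add' _ _ := rfl
  map_smul' _ _ := rfl

lemma shC_apply (g : G) (ψ : Additive H →+ K) (x : G ⧸ H) :
    shC H K g ψ x = ψ (Additive.ofMul ⟨shK H g x, shK_mem H g x⟩) := rfl

lemma shC_mul (g h : G) (ψ : Additive H →+ K) :
    shC H K (g * h) ψ = shC H K g ψ + shP H K g (shC H K h ψ) := by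
  ext x
  rw [Pi.add_apply, shP_apply, shC_apply, shC_apply, shC_apply, ← map_add, ← ofMul_mul]
  congr 2
  exact Subtype.ext (shK_mul H g h x)

/-- the twisted cocycle `g ↦ c_ψ(g) + (1 - g) m` -/
noncomputable def shC' (g : G) : ((Additive H →+ K) × ((G ⧸ H) → K)) →ₗ[K] ((G ⧸ H) → K) :=
  LinearMap.coprod (shC H K g) (1 - shP H K g)

lemma shC'_apply (g : G) (p : (Additive H →+ K) × ((G ⧸ H) → K)) :
    shC' H K g p = shC H K g p.1 + (p.2 - shP H K g p.2) := rfl

lemma shC'_mul (g h : G) (p : (Additive H →+ K) × ((G ⧸ H) → K)) :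
    shC' H K (g * h) p = shC' H K g p + shP H K g (shC' H K h p) := by
  rw [shC'_apply, shC'_apply, shC'_apply, shC_mul, shP_mul, map_add, map_sub,
    Module.End.mul_apply]
  abel

lemma shC'_one (p : (Additive H →+ K) × ((G ⧸ H) → K)) : shC' H K 1 p = 0 := by
  have h := shC'_mul H K 1 1 p
  rw [mul_one, shP_one, Module.End.one_apply] at h
  exact left_eq_add.mp h

lemma shC'_eq_zero_of_closure (S : Set G) (p : (Additive H →+ K) × ((G ⧸ H) → K))
    (h : ∀ g ∈ S, shC' H K g p = 0) : ∀ g ∈ Subgroup.closure S, shC' H K g p = 0 := by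
  intro g hg
  induction hg using Subgroup.closure_induction with
  | mem g hg => exact h g hg
  | one => exact shC'_one H K p
  | mul g g' _ _ h1 h2 => rw [shC'_mul, h1, h2, map_zero, add_zero]
  | inv g _ h1 =>
    have h2 := shC'_mul H K g g⁻¹ p
    rw [mul_inv_cancel, shC'_one, h1, zero_add] at h2
    have h3 := congrArg (shP H K g⁻¹) h2
    rw [map_zero, ← Module.End.mul_apply, ← shP_mul, inv_mul_cancel, shP_one,
      Module.End.one_apply] at h3
    exact h3.symm

/-- evaluating the cocycle at the base point recovers `ψ` -/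
lemma shC_base (ψ : Additive H →+ K) (h : H) :
    shC H K (h : G) ψ ((1 : G) : G ⧸ H) = ψ (Additive.ofMul h) := by
  have hfix : (h : G)⁻¹ • ((1 : G) : G ⧸ H) = ((1 : G) : G ⧸ H) := by
    have : (h : G)⁻¹ • ((1 : G) : G ⧸ H) = (((h : G)⁻¹ * 1 : G) : G ⧸ H) := rfl
    rw [this, QuotientGroup.eq]
    simp
  have hr : shRep H ((1 : G) : G ⧸ H) ∈ H := by
    have := shRep_mk H ((1 : G) : G ⧸ H)
    rw [QuotientGroup.eq] at this
    simpa using H.inv_mem this
  rw [shC_apply]
  have : (⟨shK H (h : G) ((1 : G) : G ⧸ H), shK_mem H _ _⟩ : H) =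
      (⟨_, hr⟩ : H)⁻¹ * h * ⟨_, hr⟩ := by
    apply Subtype.ext
    simp only [shK, hfix, Subgroup.coe_mul, InvMemClass.coe_inv]
  rw [this, ofMul_mul, ofMul_mul, map_add, map_add, ofMul_inv, map_neg]
  abel

lemma shP_pow (g : G) (n : ℕ) : shP H K (g ^ n) = shP H K g ^ n := by
  induction n with
  | zero => rw [pow_zero, pow_zero, shP_one]
  | succ n ih => rw [pow_succ, pow_succ, shP_mul, ih]

lemma shC_pow (g : G) (n : ℕ) (ψ : Additive H →+ K) :
    shC H K (g ^ n) ψ = ∑ i ∈ Finset.range n, (shP H K g ^ i) (shC H K g ψ) := by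
  induction n with
  | zero =>
    have := shC'_one H K (ψ, 0)
    rw [shC'_apply] at this
    simpa using this
  | succ n ih => rw [pow_succ, shC_mul, ih, Finset.sum_range_succ, shP_pow]

/-- the norm trick -/
lemma sh_mem_range_of_norm_eq_zero {V : Type*} [AddCommGroup V] [Module K V] (P : V →ₗ[K] V)
    (m : V) (n : ℕ) (hn : (n : K) ≠ 0) (h : ∑ i ∈ Finset.range n, (P ^ i) m = 0) :
    m ∈ LinearMap.range (1 - P) := by
  have h1 : ∀ i : ℕ, m - (P ^ i) m ∈ LinearMap.range (1 - P) := by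
    intro i
    induction i with
    | zero => simp
    | succ i ih =>
      have : m - (P ^ (i + 1)) m = (m - (P ^ i) m) + (1 - P) ((P ^ i) m) := by
        rw [pow_succ', LinearMap.sub_apply, Module.End.one_apply, Module.End.mul_apply]
        abel
      rw [this]
      exact Submodule.add_mem _ ih ⟨_, rfl⟩
  have h2 : (n : K) • m ∈ LinearMap.range (1 - P) := by
    have : (n : K) • m = ∑ i ∈ Finset.range n, (m - (P ^ i) m) := by
      rw [Finset.sum_sub_distrib, h, sub_zero, Finset.sum_const, Finset.card_range,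
        Nat.cast_smul_eq_nsmul]
    rw [this]
    exact Submodule.sum_mem _ fun i _ => h1 i
  have := Submodule.smul_mem _ (n : K)⁻¹ h2
  rwa [smul_smul, inv_mul_cancel₀ hn, one_smul] at this

/-- if all conjugates of `g ^ n` lie in `H` and are killed by `ψ`, then `c_ψ(g) ∈ (1 - g) M` -/
lemma shC_mem_range (g : G) (n : ℕ) (hn : (n : K) ≠ 0) (ψ : Additive H →+ K)
    (hz : ∀ a : G, ∃ hm : a⁻¹ * g ^ n * a ∈ H, ψ (Additive.ofMul ⟨_, hm⟩) = 0) :
    shC H K g ψ ∈ LinearMap.range (1 - shP H K g) := by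
  apply sh_mem_range_of_norm_eq_zero K _ _ n hn
  rw [← shC_pow]
  ext x
  have hfix : (g ^ n)⁻¹ • x = x := by
    rw [inv_smul_eq_iff]
    obtain ⟨a, rfl⟩ := QuotientGroup.mk_surjective x
    have : g ^ n • (a : G ⧸ H) = ((g ^ n * a : G) : G ⧸ H) := rfl
    rw [this, QuotientGroup.eq, ← mul_assoc]
    exact (hz a).1
  obtain ⟨hm, h0⟩ := hz (shRep H x)
  rw [shC_apply, Pi.zero_apply, ← h0]
  congr 2
  apply Subtype.ext
  simp only [shK, hfix]

section Dim

variable [Finite (G ⧸ H)] (a b : G) (hgen : Subgroup.closure ({a, b} : Set G) = ⊤)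

include hgen

lemma sh_ker (p : (Additive H →+ K) × ((G ⧸ H) → K)) (ha : shC' H K a p = 0)
    (hb : shC' H K b p = 0) :
    p.1 = 0 ∧ p.2 ∈ LinearMap.ker (1 - shP H K a) ⊓ LinearMap.ker (1 - shP H K b) := by
  have hall : ∀ g, shC' H K g p = 0 := fun g =>
    shC'_eq_zero_of_closure H K {a, b} p (by rintro g (rfl | rfl) <;> assumption) g
      (by rw [hgen]; trivial)
  have h1 : p.1 = 0 := by
    ext h
    have h2 := congrFun (hall ((Additive.toMul h : H) : G)) ((1 : G) : G ⧸ H)
    rw [shC'_apply, Pi.add_apply, shC_base, Pi.sub_apply, shP_apply] at h2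
    have hfix : ((Additive.toMul h : H) : G)⁻¹ • ((1 : G) : G ⧸ H) = ((1 : G) : G ⧸ H) := by
      have : ((Additive.toMul h : H) : G)⁻¹ • ((1 : G) : G ⧸ H) =
        ((((Additive.toMul h : H) : G)⁻¹ * 1 : G) : G ⧸ H) := rfl
      rw [this, QuotientGroup.eq]
      simp
    rw [hfix, sub_self, add_zero] at h2
    exact h2
  refine ⟨h1, ?_, ?_⟩
  · rw [shC'_apply, h1, map_zero, zero_add] at ha
    exact ha
  · rw [shC'_apply, h1, map_zero, zero_add] at hb
    exact hb

lemma sh_trans (x y : G ⧸ H) :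
    ∃ g ∈ Subgroup.closure ({MulAction.toPerm a, MulAction.toPerm b} : Set (Equiv.Perm (G ⧸ H))),
      g x = y := by
  obtain ⟨h, rfl⟩ := MulAction.exists_smul_eq G x y
  refine ⟨MulAction.toPerm h, ?_, rfl⟩
  have h1 : h ∈ Subgroup.closure ({a, b} : Set G) := by rw [hgen]; trivial
  have h2 := Subgroup.mem_map_of_mem (MulAction.toPermHom G (G ⧸ H)) h1
  rw [MonoidHom.map_closure, Set.image_pair] at h2
  exact h2

/-- **dimension bound** for a space `W` of homomorphisms `H → K` whose Shapiro cocycles are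
"parabolic" at `a`, `b`, `a * b`. -/
theorem sh_finrank_le {W : Type*} [AddCommGroup W] [Module K W] (ι : W →ₗ[K] (Additive H →+ K))
    (hι : ∀ w, ι w = 0 → w = 0)
    (ha : ∀ w, shC H K a (ι w) ∈ LinearMap.range (1 - shP H K a))
    (hb : ∀ w, shC H K b (ι w) ∈ LinearMap.range (1 - shP H K b))
    (hab : ∀ w, shC H K (a * b) (ι w) ∈ LinearMap.range (1 - shP H K (a * b))) :
    FiniteDimensional K W ∧
      finrank K W + Nat.card (MulAction.orbitRel.Quotient (Subgroup.zpowers a) (G ⧸ H)) +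
        Nat.card (MulAction.orbitRel.Quotient (Subgroup.zpowers b) (G ⧸ H)) +
        Nat.card (MulAction.orbitRel.Quotient (Subgroup.zpowers (a * b)) (G ⧸ H)) ≤
        Nat.card (G ⧸ H) + 2 := by
  classical
  have : Fintype (G ⧸ H) := Fintype.ofFinite _
  have hfd : FiniteDimensional K W := by
    let L : W →ₗ[K] (((G ⧸ H) → K) × ((G ⧸ H) → K)) :=
      (LinearMap.prod (shC H K a) (shC H K b)) ∘ₗ ι
    refine FiniteDimensional.of_injective L ?_
    rw [← LinearMap.ker_eq_bot, LinearMap.ker_eq_bot']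
    intro w hw
    have h1 : shC H K a (ι w) = 0 := congrArg Prod.fst hw
    have h2 : shC H K b (ι w) = 0 := congrArg Prod.snd hw
    exact hι w (sh_ker H K a b hgen (ι w, 0)
      (by rw [shC'_apply, h1]; simp) (by rw [shC'_apply, h2]; simp)).1
  refine ⟨hfd, ?_⟩
  let Ψ : (W × ((G ⧸ H) → K)) →ₗ[K] (((G ⧸ H) → K) × ((G ⧸ H) → K) × ((G ⧸ H) → K)) :=
    (LinearMap.prod (shC' H K a) (LinearMap.prod (shC' H K b) (shC' H K (a * b)))) ∘ₗ
      (LinearMap.prodMap ι LinearMap.id)
  have hΨ : ∀ p : W × ((G ⧸ H) → K), Ψ p = (shC' H K a (ι p.1, p.2),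
      shC' H K b (ι p.1, p.2), shC' H K (a * b) (ι p.1, p.2)) :=
    fun p => rfl
  have hmem : ∀ (g : G) (p : W × ((G ⧸ H) → K)),
      shC H K g (ι p.1) ∈ LinearMap.range (1 - shP H K g) →
      shC' H K g (ι p.1, p.2) ∈ LinearMap.range (1 - shP H K g) := by
    intro g p h
    rw [shC'_apply]
    exact Submodule.add_mem _ h ⟨p.2, rfl⟩
  have hran : LinearMap.range Ψ ≤ reeZ (shP H K a) (shP H K b) := by
    rintro _ ⟨p, rfl⟩
    rw [hΨ]
    refine ⟨hmem a p (ha _), hmem b p (hb _), ?_, ?_⟩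
    · rw [← shP_mul]
      exact hmem (a * b) p (hab _)
    · exact (shC'_mul H K a b _).symm
  have hker : LinearMap.ker Ψ ≤
      (LinearMap.ker (1 - shP H K a) ⊓ LinearMap.ker (1 - shP H K b)).map
        (LinearMap.inr K W ((G ⧸ H) → K)) := by
    intro p hp
    rw [LinearMap.mem_ker, hΨ] at hp
    have h1 := congrArg Prod.fst hp
    have h2 := congrArg (fun q => q.2.1) hp
    obtain ⟨h3, h4⟩ := sh_ker H K a b hgen (ι p.1, p.2) h1 h2
    refine ⟨p.2, h4, ?_⟩
    apply Prod.ext
    · exact (hι _ h3).symm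
    · rfl
  have e1 := LinearMap.finrank_range_add_finrank_ker Ψ
  have e2 := Submodule.finrank_mono hran
  have e3 := Submodule.finrank_mono hker
  have e4 := Submodule.finrank_map_le (LinearMap.inr K W ((G ⧸ H) → K))
    (LinearMap.ker (1 - shP H K a) ⊓ LinearMap.ker (1 - shP H K b))
  have e5 := ree_finrank_inv_le K _ _ (sh_trans H a b hgen)
  have e6 := ree_card_le_finrank_sup K _ _ (sh_trans H a b hgen)
  have e7 := ree_finrank_Z_le (shP H K a) (shP H K b)
  rw [← shP_mul] at e7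
  have e8 := ree_finrank_range K (MulAction.toPerm a : Equiv.Perm (G ⧸ H))
  have e9 := ree_finrank_range K (MulAction.toPerm b : Equiv.Perm (G ⧸ H))
  have e10 := ree_finrank_range K (MulAction.toPerm (a * b) : Equiv.Perm (G ⧸ H))
  rw [Module.finrank_prod, Module.finrank_fintype_fun_eq_card] at e1
  have o1 : Nat.card (MulAction.orbitRel.Quotient (Subgroup.zpowers a) (G ⧸ H)) =
      reeOrb (MulAction.toPerm a : Equiv.Perm (G ⧸ H)) := ree_card_orbits_eq a
  have o2 : Nat.card (MulAction.orbitRel.Quotient (Subgroup.zpowers b) (G ⧸ H)) =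
      reeOrb (MulAction.toPerm b : Equiv.Perm (G ⧸ H)) := ree_card_orbits_eq b
  have o3 : Nat.card (MulAction.orbitRel.Quotient (Subgroup.zpowers (a * b)) (G ⧸ H)) =
      reeOrb (MulAction.toPerm (a * b) : Equiv.Perm (G ⧸ H)) := ree_card_orbits_eq (a * b)
  have o4 : Nat.card (G ⧸ H) = Fintype.card (G ⧸ H) := Nat.card_eq_fintype_card
  unfold shP at e2 e3 e4 e7
  omega

end Dim

end General

end Fermat.Agent.S21
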