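import Fermat.Agent.S21.Final
import Fermat.Agent.X0.Cosets
import Fermat.Agent.X0.Cusps

/-!
# `dim Hom_par(Γ₀(N), ℂ) ≤ 2 g` and `dim S₂(Γ₀(N)) ≤ g`

Assembly of the coset counts with `parDim_le` and `two_mul_finrank_le`.
-/

namespace Fermat.Agent.S21

open Matrix.SpecialLinearGroup CongruenceSubgroup ModularCurve
open scoped MatrixGroups

/-- The genus formula is a natural number `g`, and `dim Hom_par ≤ 2 g`. -/
theorem exists_genus_parDim_le (N : ℕ) [NeZero N] :
    ∃ g : ℕ, (g : ℚ) = genusFormula N ∧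
      Module.finrank ℂ (ModularCurve.Period.parabolicHoms ℂ (Gamma0 N) ℂ) ≤ 2 * g := by
  obtain ⟨g, hg, hcount⟩ := Fermat.Agent.X0.genusNat_of_counts N
    (Fermat.Agent.X0.card_cos N) (Fermat.Agent.X0.two_mul_card_orbits_S N)
    (Fermat.Agent.X0.three_mul_card_orbits_U N) (Fermat.Agent.X0.card_orbits_T N)
  refine ⟨g, hg, ?_⟩
  have h := (parDim_le N).2
  omega

/-- The upper bound `dim S₂(Γ₀(N)) ≤ g(X₀(N))`. -/
theorem finrank_cuspForm_le_genus (N : ℕ) [NeZero N] :
    (Module.finrank ℂ (CuspForm ((Gamma0 N).map (mapGL ℝ)) 2) : ℚ) ≤ genusFormula N := by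
  obtain ⟨g, hg, hle⟩ := exists_genus_parDim_le N
  have h := two_mul_finrank_le N
  rw [← hg]
  exact_mod_cast (by omega : Module.finrank ℂ (CuspForm ((Gamma0 N).map (mapGL ℝ)) 2) ≤ g)

/-- Eichler–Shimura from the lower bound `g ≤ dim S₂(Γ₀(N))`. -/
theorem eichlerShimura_of_genus_le (N : ℕ) [NeZero N]
    (h : genusFormula N ≤ (Module.finrank ℂ (CuspForm ((Gamma0 N).map (mapGL ℝ)) 2) : ℚ)) :
    Function.Injective (ModularCurve.periodHomPair N) ∧
      LinearMap.range (ModularCurve.periodHomPair N) =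
        ModularCurve.Period.parabolicHoms ℂ (Gamma0 N) ℂ := by
  obtain ⟨g, hg, hle⟩ := exists_genus_parDim_le N
  rw [← hg] at h
  have h' : g ≤ Module.finrank ℂ (CuspForm ((Gamma0 N).map (mapGL ℝ)) 2) := by exact_mod_cast h
  exact eichlerShimura_of_le N (by omega)

end Fermat.Agent.S21
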