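import Fermat.Agent.S21.MaxPrin

/-!
# S21, analytic half (4): injectivity of `periodHomPair`
-/

set_option autoImplicit false
set_option linter.unusedSectionVars false

open UpperHalfPlane hiding I
open Function Complex Filter Topology ComplexConjugate
open scoped Manifold Real MatrixGroups ModularForm
open CongruenceSubgroup Matrix.SpecialLinearGroup ModularCurve ModularCurve.Period

namespace Fermat.Agent.S21

open Fermat.Agent.S22

/-- `J γ = (jγj) J` -/
lemma inj_J_smul (γ : SL(2, ℤ)) (z : ℍ) : jConjSL γ • (J • z) = J • (γ • z) := by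
  have h : (mapGL ℝ (jConjSL γ) : GL (Fin 2) ℝ) * J = J * mapGL ℝ γ := by
    apply Units.ext
    rw [Units.val_mul, Units.val_mul, val_mapGL, val_mapGL, val_J]
    ext i j
    fin_cases i <;> fin_cases j <;> simp [Matrix.mul_apply, Fin.sum_univ_two]
  show (mapGL ℝ (jConjSL γ) : GL (Fin 2) ℝ) • (J • z) = J • ((mapGL ℝ γ : GL (Fin 2) ℝ) • z)
  rw [← mul_smul, h, mul_smul]

lemma inj_J_J (z : ℍ) : J • (J • z) = z := by
  rw [← mul_smul, ← sq, J_sq, one_smul]

lemma inj_im_J (z : ℍ) : (J • z).im = z.im := by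
  have : ((J • z : ℍ) : ℂ).im = (z : ℂ).im := by
    rw [coe_J_smul]; simp
  exact this

lemma inj_tendsto_J : Tendsto (fun w : ℍ => J • w) atImInfty atImInfty := by
  rw [atImInfty, tendsto_comap_iff]
  have : (UpperHalfPlane.im ∘ fun w : ℍ => J • w) = UpperHalfPlane.im :=
    funext fun w => inj_im_J w
  rw [this]
  exact tendsto_comap

/-- the reflected function `z ↦ conj (B (-conj z))` -/
noncomputable def injRefl (B : ℍ → ℂ) : ℍ → ℂ := fun z => conj (B (J • z))

lemma injRefl_hasDerivAt {B b : ℍ → ℂ} (hB : ∀ τ : ℍ, HasDerivAt (B ∘ ofComplex) (b τ) ↑τ)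
    (τ : ℍ) : HasDerivAt (injRefl B ∘ ofComplex) (-conj (b (J • τ))) (τ : ℂ) := by
  have h1 := hB (J • τ)
  have h2 : HasDerivAt (fun u : ℂ => (B ∘ ofComplex) (-u)) (-(b (J • τ))) (conj (τ : ℂ)) := by
    have hneg : HasDerivAt (fun u : ℂ => -u) (-1) (conj (τ : ℂ)) := (hasDerivAt_id _).neg
    have h1' : HasDerivAt (B ∘ ofComplex) (b (J • τ)) (-(conj (τ : ℂ))) := by
      rw [← coe_J_smul]; exact h1
    have := h1'.comp (conj (τ : ℂ)) hneg
    rw [mul_neg, mul_one] at this
    exact this
  have h3 := h2.conj_conj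
  rw [Complex.conj_conj, map_neg] at h3
  refine h3.congr_of_eventuallyEq ?_
  filter_upwards [isOpen_upperHalfPlaneSet.mem_nhds τ.im_pos] with z hz
  simp only [comp_apply, injRefl]
  rw [J_smul, ofComplex_apply_of_im_pos hz]

lemma injRefl_mdiff {B b : ℍ → ℂ} (hB : ∀ τ : ℍ, HasDerivAt (B ∘ ofComplex) (b τ) ↑τ) :
    MDiff (injRefl B) := by
  rw [mdifferentiable_iff]
  intro z hz
  exact (injRefl_hasDerivAt hB ⟨z, hz⟩).differentiableAt.differentiableWithinAt

lemma injRefl_tendsto {B : ℍ → ℂ}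
    (hB : ∀ δ : SL(2, ℤ), ∃ L : ℂ, Tendsto (fun w : ℍ => B (δ • w)) atImInfty (𝓝 L))
    (δ : SL(2, ℤ)) : ∃ L : ℂ, Tendsto (fun w : ℍ => injRefl B (δ • w)) atImInfty (𝓝 L) := by
  obtain ⟨L, hL⟩ := hB (jConjSL δ)
  refine ⟨conj L, ?_⟩
  have h1 := hL.comp inj_tendsto_J
  have h2 := (Complex.continuous_conj.tendsto L).comp h1
  refine h2.congr fun w => ?_
  simp only [comp_apply, injRefl, inj_J_smul]

variable {N : ℕ} [NeZero N]

/-- the main step: `P(a) + ι P(b) = 0` implies `a = 0` and `b = 0` -/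
lemma inj_key (a b : CuspForm (Gamma0 N) 2)
    (h : ∀ γ : Gamma0 N, periodMap N a (Additive.ofMul γ) +
      periodMap N b (Additive.ofMul (jConjGamma0 N γ)) = 0) : a = 0 ∧ b = 0 := by
  have hA := (prim_has a).1
  have hB := (prim_has b).1
  have key : ∀ (lam : ℂ) (τ : ℍ), lam * a τ + conj lam * (-conj (b (J • τ))) = 0 := by
    intro lam τ
    let E : ℍ → ℂ := fun z => lam * prim a z + conj lam * injRefl (prim b) z
    have hder : ∀ τ : ℍ, HasDerivAt (E ∘ ofComplex)
        (lam * a τ + conj lam * (-conj (b (J • τ)))) (τ : ℂ) := fun τ =>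
      ((hA τ).const_mul lam).add ((injRefl_hasDerivAt hB τ).const_mul (conj lam))
    have hE : MDiff E := by
      rw [mdifferentiable_iff]
      intro z hz
      exact (hder ⟨z, hz⟩).differentiableAt.differentiableWithinAt
    refine maxPrin_deriv (N := N) hE ?_ ?_ τ _ (hder τ)
    · intro γ hγ
      set p := periodMap N a (Additive.ofMul (⟨γ, hγ⟩ : Gamma0 N)) with hp
      refine ⟨lam * p - conj (lam * p), by simp, fun z => ?_⟩
      have h1 := periodMap_eq a ⟨γ, hγ⟩ z
      have h2 := periodMap_eq b (jConjGamma0 N ⟨γ, hγ⟩) (J • z)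
      have h3 := h ⟨γ, hγ⟩
      rw [jConjGamma0_coe] at h2
      rw [inj_J_smul] at h2
      have h4 : periodMap N b (Additive.ofMul (jConjGamma0 N ⟨γ, hγ⟩)) = -p := by
        rw [hp]; linear_combination h3
      rw [h4] at h2
      rw [← hp] at h1
      have h5 : conj (prim b (J • (γ • z))) - conj (prim b (J • z)) = -conj p := by
        rw [← map_sub, ← h2, map_neg]
      simp only [E, injRefl, map_mul]
      linear_combination (-lam) * h1 + conj lam * h5
    · intro δ
      obtain ⟨L₁, hL₁⟩ := prim_tendsto_smul a δ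
      obtain ⟨L₂, hL₂⟩ := injRefl_tendsto (prim_tendsto_smul b) δ
      exact ⟨lam * L₁ + conj lam * L₂, (hL₁.const_mul lam).add (hL₂.const_mul (conj lam))⟩
  have ha : ∀ τ : ℍ, a τ = 0 := by
    intro τ
    have h1 := key 1 τ
    have h2 := key Complex.I τ
    simp only [map_one, one_mul, Complex.conj_I] at h1 h2
    have h3 : Complex.I * (2 * a τ) = 0 := by linear_combination Complex.I * h1 + h2
    have := (mul_eq_zero.mp h3).resolve_left Complex.I_ne_zero
    simpa using this
  have hb : ∀ τ : ℍ, b τ = 0 := by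
    intro τ
    have h1 := key 1 (J • τ)
    simp only [map_one, one_mul, ha, zero_add, inj_J_J, neg_eq_zero, map_eq_zero] at h1
    exact h1
  exact ⟨DFunLike.ext _ _ ha, DFunLike.ext _ _ hb⟩

/-- **Injectivity** of `periodHomPair`. -/
theorem periodHomPair_injective : Function.Injective (periodHomPair N) := by
  rw [← LinearMap.ker_eq_bot, LinearMap.ker_eq_bot']
  rintro ⟨f, g⟩ hfg
  have h : ∀ γ : Gamma0 N, periodMap N (f + g) (Additive.ofMul γ) +
      periodMap N (f - g) (Additive.ofMul (jConjGamma0 N γ)) = 0 := by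
    intro γ
    have h1 := periodHomPair_apply f g γ
    rw [hfg, AddMonoidHom.zero_apply] at h1
    rw [← periodLin_apply, ← periodLin_apply, map_add, map_sub, AddMonoidHom.add_apply,
      AddMonoidHom.sub_apply]
    simp only [periodLin_apply]
    linear_combination -h1
  obtain ⟨h1, h2⟩ := inj_key _ _ h
  have hf : f = 0 := by
    have : (2 : ℂ) • f = 0 := by
      have : (2 : ℂ) • f = (f + g) + (f - g) := by rw [two_smul]; abel
      rw [this, h1, h2, add_zero]
    exact (smul_eq_zero.mp this).resolve_left two_ne_zero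
  have hg : g = 0 := by rw [hf, zero_add] at h1; exact h1
  rw [hf, hg]; rfl

end Fermat.Agent.S21
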