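import Fermat.Agent.S21.Prim

/-!
# S21, analytic half (2): periods of parabolic elements vanish
-/

set_option autoImplicit false

open UpperHalfPlane hiding I
open Function Complex Filter Topology
open scoped Manifold Real MatrixGroups ModularForm
open CongruenceSubgroup Matrix.SpecialLinearGroup ModularCurve ModularCurve.Period

namespace Fermat.Agent.S21

/-- an element of `SL(2,ℤ)` of trace `±2` is conjugate to an upper triangular one -/
lemma parab_conj (γ : SL(2, ℤ)) (h : (γ : Matrix (Fin 2) (Fin 2) ℤ).trace ^ 2 = 4) :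
    ∃ δ : SL(2, ℤ), (δ⁻¹ * γ * δ) 1 0 = 0 := by
  obtain ⟨a, ha⟩ : ∃ a, a = γ 0 0 := ⟨_, rfl⟩
  obtain ⟨b, hb⟩ : ∃ b, b = γ 0 1 := ⟨_, rfl⟩
  obtain ⟨c, hc⟩ : ∃ c, c = γ 1 0 := ⟨_, rfl⟩
  obtain ⟨d, hd⟩ : ∃ d, d = γ 1 1 := ⟨_, rfl⟩
  have hdet : a * d - b * c = 1 := by
    have := γ.det_coe
    rw [Matrix.det_fin_two] at this
    rw [ha, hb, hc, hd]; exact this
  have htr : (a + d) ^ 2 = 4 := by
    rw [Matrix.trace_fin_two] at h
    rw [ha, hd]; exact h
  obtain ⟨ε, hε, hε2⟩ : ∃ ε : ℤ, a + d = 2 * ε ∧ ε ^ 2 = 1 := by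
    have : (a + d - 2) * (a + d + 2) = 0 := by linear_combination htr
    rcases mul_eq_zero.mp this with h1 | h1
    · exact ⟨1, by linarith, by norm_num⟩
    · exact ⟨-1, by linarith, by norm_num⟩
  by_cases hc0 : c = 0
  · refine ⟨1, ?_⟩
    simp [← hc, hc0]
  have hg : 0 < Int.gcd (a - ε) c := Int.gcd_pos_of_ne_zero_right _ hc0
  obtain ⟨p, q, hpq, hp, hq⟩ := Int.exists_gcd_one hg
  set g : ℤ := (Int.gcd (a - ε) c : ℤ) with hgdef
  have hg0 : g ≠ 0 := by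
    rw [hgdef]; exact_mod_cast hg.ne'
  obtain ⟨u, v, huv⟩ := Int.isCoprime_iff_gcd_eq_one.mpr hpq
  let δ : SL(2, ℤ) := ⟨!![p, -v; q, u], by rw [Matrix.det_fin_two_of]; linarith⟩
  refine ⟨δ, ?_⟩
  have hδM : (δ : Matrix (Fin 2) (Fin 2) ℤ) = !![p, -v; q, u] := rfl
  have hinvM : ((δ⁻¹ : SL(2, ℤ)) : Matrix (Fin 2) (Fin 2) ℤ) = !![u, v; -q, p] := by
    rw [Matrix.SpecialLinearGroup.SL2_inv_expl]
    ext i j
    fin_cases i <;> fin_cases j <;> simp [hδM]
  have hγ : (γ : Matrix (Fin 2) (Fin 2) ℤ) = !![a, b; c, d] := by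
    rw [ha, hb, hc, hd]; exact Matrix.eta_fin_two _
  have e : (δ⁻¹ * γ * δ) 1 0 = c * p ^ 2 + (d - a) * p * q - b * q ^ 2 := by
    rw [Matrix.SpecialLinearGroup.coe_mul, Matrix.SpecialLinearGroup.coe_mul, hinvM, hγ, hδM]
    simp only [Matrix.mul_apply, Fin.sum_univ_two, Matrix.of_apply, Matrix.cons_val',
      Matrix.cons_val_zero, Matrix.cons_val_one, Matrix.cons_val_fin_one]
    ring
  rw [e]
  have key : g ^ 2 * (c * p ^ 2 + (d - a) * p * q - b * q ^ 2) = 0 := by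
    have h1 : g ^ 2 * (c * p ^ 2 + (d - a) * p * q - b * q ^ 2) =
        c * (p * g) ^ 2 + (d - a) * (p * g) * (q * g) - b * (q * g) ^ 2 := by ring
    rw [h1, ← hp, ← hq]
    have h2 : c * (a - ε) ^ 2 + (d - a) * (a - ε) * c - b * c ^ 2 =
        c * ((a * d - b * c) - ε * (a + d) + ε ^ 2) := by ring
    rw [h2, hdet, hε, hε2]
    have : ε * (2 * ε) = 2 * ε ^ 2 := by ring
    rw [this, hε2]; ring
  exact (mul_eq_zero.mp key).resolve_left (pow_ne_zero 2 hg0)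

/-- upper triangular elements of `SL(2,ℤ)` preserve the imaginary part -/
lemma parab_im_smul (β : SL(2, ℤ)) (hβ : β 1 0 = 0) (w : ℍ) : (β • w).im = w.im := by
  have hdet : β 0 0 * β 1 1 = 1 := by
    have := β.det_coe
    rw [Matrix.det_fin_two, hβ] at this
    linarith
  have h11 : (β 1 1) ^ 2 = 1 := by
    rcases Int.isUnit_iff.mp (IsUnit.of_mul_eq_one _ (by rw [mul_comm]; exact hdet)) with h | h <;>
      rw [h] <;> norm_num
  rw [ModularGroup.im_smul_eq_div_normSq, ModularGroup.denom_apply, hβ]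
  have : Complex.normSq (((0 : ℤ) : ℂ) * (w : ℂ) + ((β 1 1 : ℤ) : ℂ)) = 1 := by
    have h2 : (((0 : ℤ) : ℂ) * (w : ℂ) + ((β 1 1 : ℤ) : ℂ)) = (((β 1 1 : ℤ) : ℝ) : ℂ) := by
      push_cast; ring
    rw [h2, Complex.normSq_ofReal, ← pow_two]
    exact_mod_cast h11
  rw [this, div_one]

lemma parab_tendsto_smul (β : SL(2, ℤ)) (hβ : β 1 0 = 0) :
    Tendsto (fun w : ℍ => β • w) atImInfty atImInfty := by
  rw [atImInfty, tendsto_comap_iff]
  have : (UpperHalfPlane.im ∘ fun w : ℍ => β • w) = UpperHalfPlane.im :=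
    funext fun w => parab_im_smul β hβ w
  rw [this]
  exact tendsto_comap

/-- the key limit argument -/
lemma parab_const_eq_zero {F : ℍ → ℂ} (γ δ : SL(2, ℤ)) (hβ : (δ⁻¹ * γ * δ) 1 0 = 0) (c : ℂ)
    (hc : ∀ z : ℍ, F (γ • z) - F z = c) {L : ℂ}
    (hL : Tendsto (fun w : ℍ => F (δ • w)) atImInfty (𝓝 L)) : c = 0 := by
  have h1 := hL.comp (parab_tendsto_smul _ hβ)
  have h2 : ((fun w : ℍ => F (δ • w)) ∘ fun w : ℍ => (δ⁻¹ * γ * δ) • w) =
      fun w => F (δ • w) + c := by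
    funext w
    simp only [comp_apply]
    rw [← mul_smul, mul_assoc, mul_inv_cancel_left, mul_smul, ← hc (δ • w)]
    ring
  rw [h2] at h1
  have h3 := hL.add_const c
  have := tendsto_nhds_unique h1 h3
  simpa using this.symm

variable {N : ℕ} [NeZero N]

/-- the period map takes values in the parabolic homomorphisms -/
theorem periodMap_mem_parabolicHoms (f : CuspForm (Gamma0 N) 2) :
    periodMap N f ∈ parabolicHoms ℂ (Gamma0 N) ℂ := by
  intro γ hγ
  obtain ⟨δ, hδ⟩ := parab_conj γ hγ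
  obtain ⟨L, hL⟩ := prim_tendsto_smul f δ
  exact parab_const_eq_zero (γ : SL(2, ℤ)) δ hδ _ (fun z => (periodMap_eq f γ z).symm) hL

theorem periodHomPair_mem_parabolicHoms (p : CuspForm (Gamma0 N) 2 × CuspForm (Gamma0 N) 2) :
    periodHomPair N p ∈ parabolicHoms ℂ (Gamma0 N) ℂ := by
  obtain ⟨pml, hpml, he⟩ := periodHomPair_def N (existsPeriodMapLinear N)
  rw [he]
  have h1 : ∀ f, pml f ∈ parabolicHoms ℂ (Gamma0 N) ℂ := fun f => by
    rw [hpml]; exact periodMap_mem_parabolicHoms f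
  simp only [LinearMap.coprod_apply, LinearMap.comp_apply, LinearMap.add_apply,
    LinearMap.sub_apply, LinearMap.id_apply]
  exact Submodule.add_mem _
    (Submodule.add_mem _ (h1 _) (charInvolution_mem_parabolicHoms N ℂ ℂ (h1 _)))
    (Submodule.sub_mem _ (h1 _) (charInvolution_mem_parabolicHoms N ℂ ℂ (h1 _)))

end Fermat.Agent.S21
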