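import Fermat.Agent.S21.Inj
import Fermat.Agent.X0.GenusNat

/-!
# S21: assembly (conditional on the dimension formula)
-/

set_option autoImplicit false

open Module
open scoped MatrixGroups
open CongruenceSubgroup ModularCurve ModularCurve.Period

namespace Fermat.Agent.S21

variable (N : ℕ) [NeZero N]

lemma final_range_le :
    LinearMap.range (periodHomPair N) ≤ parabolicHoms ℂ (Gamma0 N) ℂ := by
  rintro _ ⟨p, rfl⟩
  exact periodHomPair_mem_parabolicHoms p

lemma final_finiteDimensional : FiniteDimensional ℂ (CuspForm (Gamma0 N) 2) := by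
  have h1 := (parDim_le N).1
  let L : CuspForm (Gamma0 N) 2 →ₗ[ℂ] parabolicHoms ℂ (Gamma0 N) ℂ :=
    LinearMap.codRestrict _ (periodHomPair N ∘ₗ LinearMap.inl ℂ _ _)
      (fun f => periodHomPair_mem_parabolicHoms _)
  refine FiniteDimensional.of_injective L ?_
  intro f g hfg
  have h2 : periodHomPair N (f, 0) = periodHomPair N (g, 0) := congrArg Subtype.val hfg
  exact congrArg Prod.fst (periodHomPair_injective h2)

lemma final_finrank_range :
    finrank ℂ (LinearMap.range (periodHomPair N)) = 2 * finrank ℂ (CuspForm (Gamma0 N) 2) := by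
  have := final_finiteDimensional N
  rw [LinearMap.finrank_range_of_inj (periodHomPair_injective (N := N)), Module.finrank_prod, two_mul]

/-- **upper bound** for the dimension of `S₂(Γ₀(N))` -/
theorem two_mul_finrank_le :
    2 * finrank ℂ (CuspForm (Gamma0 N) 2) ≤ finrank ℂ (parabolicHoms ℂ (Gamma0 N) ℂ) := by
  have h1 := (parDim_le N).1
  rw [← final_finrank_range]
  exact Submodule.finrank_mono (final_range_le N)

/-- S21 from the lower bound for `dim S₂(Γ₀(N))` -/
theorem eichlerShimura_of_le
    (h : finrank ℂ (parabolicHoms ℂ (Gamma0 N) ℂ) ≤ 2 * finrank ℂ (CuspForm (Gamma0 N) 2)) :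
    Function.Injective (periodHomPair N) ∧
      LinearMap.range (periodHomPair N) = parabolicHoms ℂ (Gamma0 N) ℂ := by
  refine ⟨periodHomPair_injective, ?_⟩
  have h1 := (parDim_le N).1
  apply Submodule.eq_of_le_of_finrank_le (final_range_le N)
  rw [final_finrank_range]
  exact h

end Fermat.Agent.S21
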