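import Fermat.Agent.S21.Shapiro
import Fermat.Prelude.Def_ModularCurve_PeriodMap
import Mathlib.NumberTheory.ModularForms.CongruenceSubgroups

/-!
# S21, algebraic half: `dim Hom_par(Γ₀(N), ℂ) ≤ μ + 2 - o_S - o_T - o_U`
-/

set_option autoImplicit false

namespace Fermat.Agent.S21

open Fermat.Agent.X0 Module CongruenceSubgroup ModularCurve.Period ModularGroup
open scoped MatrixGroups

lemma parDim_trace_conj (a z : SL(2, ℤ)) :
    ((a⁻¹ * z * a : SL(2, ℤ)) : Matrix (Fin 2) (Fin 2) ℤ).trace =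
      (z : Matrix (Fin 2) (Fin 2) ℤ).trace := by
  rw [Matrix.SpecialLinearGroup.coe_mul, Matrix.SpecialLinearGroup.coe_mul,
    Matrix.trace_mul_cycle, ← Matrix.SpecialLinearGroup.coe_mul, mul_inv_cancel,
    Matrix.SpecialLinearGroup.coe_one, one_mul]

lemma parDim_S_sq : (S : SL(2, ℤ)) ^ 2 = -1 := by
  ext i j
  fin_cases i <;> fin_cases j <;> simp [pow_two, coe_S, Matrix.mul_apply, Fin.sum_univ_two]

lemma parDim_ST_cube : (S * T : SL(2, ℤ)) ^ 3 = -1 := by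
  ext i j
  fin_cases i <;> fin_cases j <;>
    simp [pow_succ, coe_S, coe_T, Matrix.mul_apply, Fin.sum_univ_two]

lemma parDim_neg_one_conj (a : SL(2, ℤ)) : a⁻¹ * (-1) * a = -1 := by
  rw [mul_neg, mul_one, neg_mul, inv_mul_cancel]

lemma parDim_neg_one_mem (N : ℕ) : (-1 : SL(2, ℤ)) ∈ Gamma0 N := by
  rw [Gamma0_mem]
  simp

lemma parDim_T_pow_mem (N : ℕ) : (T : SL(2, ℤ)) ^ N ∈ Gamma N := by
  rw [Gamma_mem, ← zpow_natCast]
  have h := coe_T_zpow (N : ℤ)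
  have h' : ∀ i j, (T ^ (N : ℤ) : SL(2, ℤ)) i j = (!![1, (N : ℤ); 0, 1] : Matrix _ _ ℤ) i j :=
    fun i j => congrFun (congrFun h i) j
  rw [h', h', h', h']
  simp

lemma parDim_Gamma_le (N : ℕ) : Gamma N ≤ Gamma0 N := by
  intro g hg
  rw [Gamma_mem] at hg
  rw [Gamma0_mem]
  exact hg.2.2.1

variable (N : ℕ)

lemma parDim_kill (ψ : Additive (Gamma0 N) →+ ℂ) (hψ : ψ ∈ parabolicHoms ℂ (Gamma0 N) ℂ)
    (z : SL(2, ℤ)) (hz : ∀ a : SL(2, ℤ), a⁻¹ * z * a ∈ Gamma0 N)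
    (htr : (z : Matrix (Fin 2) (Fin 2) ℤ).trace ^ 2 = 4) (a : SL(2, ℤ)) :
    ∃ hm : a⁻¹ * z * a ∈ Gamma0 N, ψ (Additive.ofMul ⟨_, hm⟩) = 0 := by
  refine ⟨hz a, ?_⟩
  apply hψ
  show ((a⁻¹ * z * a : SL(2, ℤ)) : Matrix (Fin 2) (Fin 2) ℤ).trace ^ 2 = 4
  rw [parDim_trace_conj, htr]

/-- **The algebraic half of Eichler–Shimura**: the dimension of the space of parabolic
homomorphisms is at most `μ + 2 - o_S - o_T - o_{ST}`. -/
theorem parDim_le [NeZero N] :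
    FiniteDimensional ℂ (parabolicHoms ℂ (Gamma0 N) ℂ) ∧
      finrank ℂ (parabolicHoms ℂ (Gamma0 N) ℂ) +
        Nat.card (MulAction.orbitRel.Quotient (Subgroup.zpowers S) (SL(2, ℤ) ⧸ Gamma0 N)) +
        Nat.card (MulAction.orbitRel.Quotient (Subgroup.zpowers T) (SL(2, ℤ) ⧸ Gamma0 N)) +
        Nat.card (MulAction.orbitRel.Quotient (Subgroup.zpowers (S * T)) (SL(2, ℤ) ⧸ Gamma0 N)) ≤
        Nat.card (SL(2, ℤ) ⧸ Gamma0 N) + 2 := by
  have hfin : Finite (SL(2, ℤ) ⧸ Gamma0 N) := Subgroup.finite_quotient_of_finiteIndex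
  have hneg : ∀ a : SL(2, ℤ), a⁻¹ * (-1) * a ∈ Gamma0 N := fun a => by
    rw [parDim_neg_one_conj]; exact parDim_neg_one_mem N
  have htrneg : ((-1 : SL(2, ℤ)) : Matrix (Fin 2) (Fin 2) ℤ).trace ^ 2 = 4 := by
    simp
  have hTN : ∀ a : SL(2, ℤ), a⁻¹ * T ^ N * a ∈ Gamma0 N := fun a => by
    apply parDim_Gamma_le
    have := (Gamma_normal N).conj_mem _ (parDim_T_pow_mem N) a⁻¹
    rwa [inv_inv] at this
  have htrT : ((T ^ N : SL(2, ℤ)) : Matrix (Fin 2) (Fin 2) ℤ).trace ^ 2 = 4 := by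
    rw [← zpow_natCast]
    have h := coe_T_zpow (N : ℤ)
    have h2 : ((T ^ (N : ℤ) : SL(2, ℤ)) : Matrix (Fin 2) (Fin 2) ℤ) = !![1, (N : ℤ); 0, 1] := h
    rw [h2, Matrix.trace_fin_two_of]
    norm_num
  refine sh_finrank_le (Gamma0 N) ℂ S T SpecialLinearGroup.SL2Z_generators
    (W := parabolicHoms ℂ (Gamma0 N) ℂ) (parabolicHoms ℂ (Gamma0 N) ℂ).subtype
    (fun w hw => Subtype.ext hw) ?_ ?_ ?_
  · intro w
    apply shC_mem_range (Gamma0 N) ℂ S 2 (by norm_num)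
    rw [parDim_S_sq]
    exact parDim_kill N _ w.2 _ hneg htrneg
  · intro w
    apply shC_mem_range (Gamma0 N) ℂ T N (Nat.cast_ne_zero.mpr (NeZero.ne N))
    exact parDim_kill N _ w.2 _ hTN htrT
  · intro w
    apply shC_mem_range (Gamma0 N) ℂ (S * T) 3 (by norm_num)
    rw [parDim_ST_cube]
    exact parDim_kill N _ w.2 _ hneg htrneg

end Fermat.Agent.S21
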