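import Fermat.Agent.S21.Parab
import Fermat.Agent.S21.ParDim

/-!
# S21, analytic half (3): a maximum principle on `Γ₀(N) \ ℍ*`
-/

set_option autoImplicit false
set_option linter.unusedSectionVars false

open UpperHalfPlane hiding I
open Function Complex Filter Topology
open scoped Manifold Real MatrixGroups ModularForm
open CongruenceSubgroup Matrix.SpecialLinearGroup

namespace Fermat.Agent.S21

local notation "𝕢" => Function.Periodic.qParam

section

variable {N : ℕ} [NeZero N] {E : ℍ → ℂ}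

/-- the translates of `exp ∘ E` -/
noncomputable def mpW (E : ℍ → ℂ) (δ : SL(2, ℤ)) : ℍ → ℂ := fun w => Complex.exp (E (δ • w))

lemma mpW_mdiff (hE : MDiff E) (δ : SL(2, ℤ)) : MDiff (mpW E δ) := by
  have h1 : MDiff (fun w : ℍ => E (δ • w)) :=
    hE.comp (mdifferentiable_smul (g := mapGL ℝ δ) (by simp))
  rw [mdifferentiable_iff] at h1 ⊢
  exact h1.cexp

lemma mpW_bdd (δ : SL(2, ℤ)) {L : ℂ} (hL : Tendsto (fun w : ℍ => E (δ • w)) atImInfty (𝓝 L)) :
    IsBoundedAtImInfty (mpW E δ) := by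
  have : Tendsto (mpW E δ) atImInfty (𝓝 (Complex.exp L)) :=
    (Complex.continuous_exp.tendsto L).comp hL
  exact this.isBigO_one ℝ

lemma mp_T_pow_smul (n : ℕ) (w : ℍ) : ((ModularGroup.T ^ n • w : ℍ) : ℂ) = (w : ℂ) + n := by
  have := ModularGroup.coe_T_zpow_smul_eq (z := w) (n := (n : ℤ))
  rw [zpow_natCast] at this
  simpa using this

lemma mp_translate
    (hinv : ∀ γ ∈ Gamma0 N, ∃ c : ℂ, c.re = 0 ∧ ∀ z : ℍ, E (γ • z) - E z = c)
    (hlim : ∀ δ : SL(2, ℤ), ∃ L : ℂ, Tendsto (fun w : ℍ => E (δ • w)) atImInfty (𝓝 L))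
    (δ : SL(2, ℤ)) (w : ℍ) : E (δ • (ModularGroup.T ^ N • w)) = E (δ • w) := by
  have hmem : δ * ModularGroup.T ^ N * δ⁻¹ ∈ Gamma0 N := by
    apply parDim_Gamma_le
    exact (Gamma_normal N).conj_mem _ (parDim_T_pow_mem N) δ
  obtain ⟨c, -, hc⟩ := hinv _ hmem
  obtain ⟨L, hL⟩ := hlim δ
  have hβ : (δ⁻¹ * (δ * ModularGroup.T ^ N * δ⁻¹) * δ) 1 0 = 0 := by
    have : δ⁻¹ * (δ * ModularGroup.T ^ N * δ⁻¹) * δ = ModularGroup.T ^ N := by group
    rw [this, ← zpow_natCast]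
    have h := ModularGroup.coe_T_zpow (N : ℤ)
    have h' := congrFun (congrFun h 1) 0
    simpa using h'
  have hc0 := parab_const_eq_zero _ δ hβ c hc hL
  have := hc (δ • w)
  rw [hc0, sub_eq_zero, ← mul_smul, inv_mul_cancel_right, mul_smul] at this
  exact this

lemma mpW_per
    (hinv : ∀ γ ∈ Gamma0 N, ∃ c : ℂ, c.re = 0 ∧ ∀ z : ℍ, E (γ • z) - E z = c)
    (hlim : ∀ δ : SL(2, ℤ), ∃ L : ℂ, Tendsto (fun w : ℍ => E (δ • w)) atImInfty (𝓝 L))
    (δ : SL(2, ℤ)) : Function.Periodic (mpW E δ ∘ ofComplex) (N : ℝ) := by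
  intro w
  by_cases hw : 0 < im w
  · have hw' : 0 < im (w + (N : ℝ)) := by simp [hw]
    simp only [comp_apply, ofComplex_apply_of_im_pos hw', ofComplex_apply_of_im_pos hw, mpW]
    have : (⟨w + (N : ℝ), hw'⟩ : ℍ) = ModularGroup.T ^ N • (⟨w, hw⟩ : ℍ) := by
      ext
      rw [mp_T_pow_smul]
      simp
    rw [this, mp_translate hinv hlim]
  · have hw0 : im w ≤ 0 := not_lt.mp hw
    have hw' : im (w + (N : ℝ)) ≤ 0 := by simpa using hw0
    simp only [comp_apply]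
    rw [ofComplex_apply_of_im_nonpos hw', ofComplex_apply_of_im_nonpos hw0]

/-- **Maximum principle.**  A holomorphic function on `ℍ` whose real part is `Γ₀(N)`-invariant
and which has limits at all cusps has constant exponential. -/
theorem maxPrin (hE : MDiff E)
    (hinv : ∀ γ ∈ Gamma0 N, ∃ c : ℂ, c.re = 0 ∧ ∀ z : ℍ, E (γ • z) - E z = c)
    (hlim : ∀ δ : SL(2, ℤ), ∃ L : ℂ, Tendsto (fun w : ℍ => E (δ • w)) atImInfty (𝓝 L)) :
    ∃ C : ℂ, ∀ z : ℍ, Complex.exp (E z) = C := by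
  have hN : (0 : ℝ) < N := by exact_mod_cast Nat.pos_of_ne_zero (NeZero.ne N)
  have hfin : Finite (SL(2, ℤ) ⧸ Gamma0 N) := Subgroup.finite_quotient_of_finiteIndex
  -- representatives
  let d : SL(2, ℤ) ⧸ Gamma0 N → SL(2, ℤ) := fun x => (Quotient.out x)⁻¹
  let c : SL(2, ℤ) ⧸ Gamma0 N → ℂ → ℂ := fun x => cuspFunction N (mpW E (d x))
  have hper := fun x => mpW_per hinv hlim (d x)
  have hhol := fun x => mpW_mdiff hE (d x)
  have hbdd : ∀ x, IsBoundedAtImInfty (mpW E (d x)) := fun x => by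
    obtain ⟨L, hL⟩ := hlim (d x)
    exact mpW_bdd (d x) hL
  have hdiff : ∀ x, DifferentiableOn ℂ (c x) (Metric.ball 0 1) := fun x =>
    differentiableOn_cuspFunction_ball hN (hper x) (hhol x) (hbdd x)
  have hval : ∀ x (τ : ℍ), c x (𝕢 N τ) = mpW E (d x) τ := fun x τ =>
    eq_cuspFunction τ hN.ne' (hper x)
  set r : ℝ := Real.exp (-π / N) with hr
  have hr1 : r < 1 := by
    rw [hr, Real.exp_lt_one_iff]
    exact div_neg_of_neg_of_pos (neg_lt_zero.mpr Real.pi_pos) hN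
  have hr0 : 0 ≤ r := (Real.exp_pos _).le
  have hsub : Metric.closedBall (0 : ℂ) r ⊆ Metric.ball 0 1 := Metric.closedBall_subset_ball hr1
  -- maxima on the closed ball
  have hmax : ∀ x, ∃ q ∈ Metric.closedBall (0 : ℂ) r,
      IsMaxOn (fun q => ‖c x q‖) (Metric.closedBall (0 : ℂ) r) q := fun x =>
    (isCompact_closedBall (0 : ℂ) r).exists_isMaxOn ⟨0, by simpa using hr0⟩
      ((hdiff x).continuousOn.mono hsub).norm
  choose qm hqm hqmax using hmax
  obtain ⟨x₀, hx₀⟩ := Finite.exists_max (fun x => ‖c x (qm x)‖)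
  -- domination
  have hdom : ∀ z : ℍ, ‖Complex.exp (E z)‖ ≤ ‖c x₀ (qm x₀)‖ := by
    intro z
    obtain ⟨g, hg⟩ := ModularGroup.exists_one_half_le_im_smul z
    set ξ := g • z with hξ
    obtain ⟨γ', hγ'⟩ := QuotientGroup.mk_out_eq_mul (Gamma0 N) g
    set x : SL(2, ℤ) ⧸ Gamma0 N := (g : SL(2, ℤ) ⧸ Gamma0 N) with hx
    have hz : z = (γ' : SL(2, ℤ)) • (d x • ξ) := by
      have : d x = (γ' : SL(2, ℤ))⁻¹ * g⁻¹ := by
        show (Quotient.out x)⁻¹ = _
        rw [hγ', mul_inv_rev]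
      rw [this, hξ, ← mul_smul, ← mul_smul]
      simp
    obtain ⟨c', hc', hcz⟩ := hinv γ' γ'.2
    have hre : (E z).re = (E (d x • ξ)).re := by
      have := hcz (d x • ξ)
      rw [← hz] at this
      have h2 := congrArg Complex.re this
      rw [Complex.sub_re, hc'] at h2
      linarith
    rw [Complex.norm_exp, hre, ← Complex.norm_exp]
    have h1 : Complex.exp (E (d x • ξ)) = c x (𝕢 N ξ) := (hval x ξ).symm
    rw [h1]
    have hq : 𝕢 N ξ ∈ Metric.closedBall (0 : ℂ) r := by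
      rw [mem_closedBall_zero_iff, Function.Periodic.norm_qParam, hr]
      apply Real.exp_le_exp.mpr
      apply div_le_div_of_nonneg_right _ hN.le
      have : (1 : ℝ) / 2 ≤ (ξ : ℂ).im := hg
      nlinarith [Real.pi_pos]
    exact (hqmax x hq).trans (hx₀ x)
  -- the maximum over the open ball is attained
  have hmaxball : IsMaxOn (norm ∘ c x₀) (Metric.ball 0 1) (qm x₀) := by
    intro q hq
    show ‖c x₀ q‖ ≤ ‖c x₀ (qm x₀)‖
    rcases eq_or_ne q 0 with rfl | hq0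
    · exact hqmax x₀ (by simpa using hr0)
    · have hq1 : ‖q‖ < 1 := by simpa using hq
      have him := Function.Periodic.im_invQParam_pos_of_norm_lt_one hN hq1 hq0
      have h1 := hval x₀ ⟨_, him⟩
      have h2 : 𝕢 N ((⟨_, him⟩ : ℍ) : ℂ) = q := Function.Periodic.qParam_right_inv hN.ne' hq0
      rw [h2] at h1
      rw [h1]
      exact hdom _
  have hconst := Complex.eqOn_of_isPreconnected_of_isMaxOn_norm
    (convex_ball (0 : ℂ) 1).isPreconnected Metric.isOpen_ball (hdiff x₀) (hsub (hqm x₀)) hmaxball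
  refine ⟨c x₀ (qm x₀), fun z => ?_⟩
  have h1 := hval x₀ ((d x₀)⁻¹ • z)
  have h2 : 𝕢 N (((d x₀)⁻¹ • z : ℍ) : ℂ) ∈ Metric.ball (0 : ℂ) 1 := by
    rw [mem_ball_zero_iff]
    exact Function.Periodic.norm_qParam_lt_one hN ((d x₀)⁻¹ • z).im_pos
  rw [hconst h2] at h1
  simp only [mpW, smul_inv_smul, const_apply] at h1
  exact h1.symm

/-- consequence: the derivative vanishes -/
theorem maxPrin_deriv (hE : MDiff E)
    (hinv : ∀ γ ∈ Gamma0 N, ∃ c : ℂ, c.re = 0 ∧ ∀ z : ℍ, E (γ • z) - E z = c)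
    (hlim : ∀ δ : SL(2, ℤ), ∃ L : ℂ, Tendsto (fun w : ℍ => E (δ • w)) atImInfty (𝓝 L))
    (τ : ℍ) (e : ℂ) (he : HasDerivAt (E ∘ ofComplex) e (τ : ℂ)) : e = 0 := by
  obtain ⟨C, hC⟩ := maxPrin hE hinv hlim
  have h1 := he.cexp
  have h2 : (fun z => Complex.exp ((E ∘ ofComplex) z)) = fun _ => C := by
    funext z
    exact hC _
  rw [h2] at h1
  have h3 := h1.unique (hasDerivAt_const (τ : ℂ) C)
  exact (mul_eq_zero.mp h3).resolve_left (Complex.exp_ne_zero _)

end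

end Fermat.Agent.S21
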