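import Fermat.Agent.S22.Cusps
import Fermat.Prelude.Def_ModularCurve_PeriodHomPair

/-!
# S21, analytic half (1): primitives of weight 2 cusp forms and the period map
-/

set_option autoImplicit false

open UpperHalfPlane hiding I
open Function Complex Filter Topology
open scoped Manifold Real MatrixGroups ModularForm
open CongruenceSubgroup Matrix.SpecialLinearGroup ModularCurve ModularCurve.Period

namespace Fermat.Agent.S21

open Fermat.Agent.S22

section CuspLike

variable {h : ℝ} {F : ℍ → ℂ}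

lemma prim_eventuallyEq (τ : ℍ) :
    (eichlerH h F 1 ∘ ofComplex) =ᶠ[𝓝 (τ : ℂ)] eichler h F 1 := by
  filter_upwards [isOpen_upperHalfPlaneSet.mem_nhds τ.im_pos] with z hz
  simp only [comp_apply, eichlerH, ofComplex_apply_of_im_pos hz]

lemma prim_hasDerivAt (hF : CuspLike h F) (τ : ℍ) :
    HasDerivAt (eichlerH h F 1 ∘ ofComplex) (F τ) (τ : ℂ) := by
  have h1 := hasDerivAt_eichler hF 0 τ.im_pos
  rw [eichler_zero hF τ] at h1
  exact h1.congr_of_eventuallyEq (prim_eventuallyEq τ)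

lemma prim_tendsto (hF : CuspLike h F) : Tendsto (eichlerH h F 1) atImInfty (𝓝 0) := by
  have han := analyticAt_cuspFunction_zero hF.pos (eichlerH_per hF 1) (eichlerH_hol hF 1)
    (eichlerH_bdd hF 1)
  have h0 : cuspFunction h (eichlerH h F 1) 0 = 0 := by
    rw [cuspFunction_apply_zero hF.pos han (eichlerH_per hF 1),
      ← qExpansion_coeff_zero hF.pos han (eichlerH_per hF 1), qExpansion_eichlerH hF,
      eCoeff_zero_right hF]
  have h1 : (cuspFunction h (eichlerH h F 1) ∘ fun τ : ℍ ↦ Function.Periodic.qParam h τ) =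
      eichlerH h F 1 := by
    funext τ
    simpa using eq_cuspFunction τ hF.pos.ne' (eichlerH_per hF 1)
  have h2 := han.continuousAt.tendsto.comp (qParam_tendsto_atImInfty hF.pos)
  rwa [h1, h0] at h2

end CuspLike

/-- two primitives of the same function on `ℍ` differ by a constant -/
lemma prim_sub_const {F₁ F₂ : ℍ → ℂ} {f : ℍ → ℂ}
    (h₁ : ∀ τ : ℍ, HasDerivAt (F₁ ∘ ofComplex) (f τ) ↑τ)
    (h₂ : ∀ τ : ℍ, HasDerivAt (F₂ ∘ ofComplex) (f τ) ↑τ) (τ τ' : ℍ) :
    F₁ τ - F₂ τ = F₁ τ' - F₂ τ' := by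
  have hD : ∀ u : ℍ, HasDerivAt (fun v => (F₁ ∘ ofComplex) v - (F₂ ∘ ofComplex) v) 0 (u : ℂ) := by
    intro u
    have := (h₁ u).sub (h₂ u)
    rw [sub_self] at this
    exact this
  have := IsOpen.is_const_of_deriv_eq_zero isOpen_upperHalfPlaneSet
    (convex_halfSpace_im_gt 0).isPreconnected
    (fun u hu => (hD ⟨u, hu⟩).differentiableAt.differentiableWithinAt)
    (fun u hu => (hD ⟨u, hu⟩).deriv) τ.im_pos τ'.im_pos
  simpa using this

lemma prim_unique {F₁ F₂ : ℍ → ℂ} {f : ℍ → ℂ}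
    (h₁ : ∀ τ : ℍ, HasDerivAt (F₁ ∘ ofComplex) (f τ) ↑τ)
    (h₂ : ∀ τ : ℍ, HasDerivAt (F₂ ∘ ofComplex) (f τ) ↑τ)
    (t₁ : Tendsto F₁ atImInfty (𝓝 0)) (t₂ : Tendsto F₂ atImInfty (𝓝 0)) : F₁ = F₂ := by
  funext τ
  have h3 : Tendsto (fun τ' => F₁ τ' - F₂ τ') atImInfty (𝓝 (0 - 0)) := t₁.sub t₂
  have h4 : (fun τ' => F₁ τ' - F₂ τ') = fun _ => F₁ τ - F₂ τ := by
    funext τ'
    exact prim_sub_const h₁ h₂ τ' τ
  rw [h4, sub_zero] at h3
  have := tendsto_nhds_unique h3 tendsto_const_nhds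
  exact sub_eq_zero.mp this.symm

variable {N : ℕ}

/-- the primitive of a weight two cusp form vanishing at `i∞` -/
noncomputable def prim (f : ℍ → ℂ) : ℍ → ℂ := eichlerH 1 f 1

lemma prim_slash [NeZero N] (f : CuspForm (Gamma0 N) 2) (δ : SL(2, ℤ)) :
    ∃ (M : ℕ) (c : ℂ), CuspLike M (⇑f ∣[(2 : ℤ)] (mapGL ℝ δ)) ∧
      ∀ w : ℍ, prim f (δ • w) = eichlerH M (⇑f ∣[(2 : ℤ)] (mapGL ℝ δ)) 1 w - c := by
  obtain ⟨M, hM, hconj⟩ := Subgroup.IsArithmetic.exists_nat_mem_strictPeriods_conj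
    (Subgroup.map (mapGL ℝ) (Gamma0 N))
  have hF' := cuspLike_translate f δ hM (hconj δ⁻¹)
  set R := periodPoly 1 M ⇑f (⇑f ∣[(2 : ℤ)] (mapGL ℝ δ)) (mapGL ℝ δ) 0 with hR
  have hdeg : R.natDegree ≤ 0 := natDegree_periodPoly_le _ 0
  have hC := Polynomial.eq_C_of_natDegree_le_zero hdeg
  refine ⟨M, R.coeff 0, hF', fun w => ?_⟩
  have h1 := eval_periodPoly (cuspLike f) hF' (mapGL ℝ δ) (det_mapGL δ) 0 (by simp) w
  rw [← hR, hC, Polynomial.eval_C, slash_apply_of_det_one _ _ _ (det_mapGL δ)] at h1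
  simp only [CharP.cast_eq_zero, neg_zero, zpow_zero, mul_one, zero_add] at h1
  have h2 : prim f (δ • w) = eichlerH 1 (⇑f) 1 (mapGL ℝ δ • w) := rfl
  rw [h2, h1]
  ring

lemma prim_tendsto_smul [NeZero N] (f : CuspForm (Gamma0 N) 2) (δ : SL(2, ℤ)) :
    ∃ L : ℂ, Tendsto (fun w : ℍ => prim f (δ • w)) atImInfty (𝓝 L) := by
  obtain ⟨M, c, hF', h⟩ := prim_slash f δ
  refine ⟨0 - c, ?_⟩
  have : (fun w : ℍ => prim f (δ • w)) =
      fun w => eichlerH M (⇑f ∣[(2 : ℤ)] (mapGL ℝ δ)) 1 w - c := funext h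
  rw [this]
  exact (prim_tendsto hF').sub tendsto_const_nhds

lemma prim_equivariant [NeZero N] (f : CuspForm (Gamma0 N) 2) :
    IsEquivariantPrimitive (Gamma0 N) (prim f) := by
  intro γ
  obtain ⟨M, c, hF', h⟩ := prim_slash f (γ : SL(2, ℤ))
  have hf : ⇑f ∣[(2 : ℤ)] (mapGL ℝ (γ : SL(2, ℤ))) = ⇑f :=
    SlashInvariantFormClass.slash_action_eq f _ ⟨γ, γ.2, rfl⟩
  rw [hf] at hF' h
  refine ⟨eichlerH M (⇑f) 1 UpperHalfPlane.I - prim f UpperHalfPlane.I - c, fun z => ?_⟩
  rw [h z]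
  have := prim_sub_const (prim_hasDerivAt hF') (prim_hasDerivAt (cuspLike f)) z UpperHalfPlane.I
  have e : prim f = eichlerH 1 (⇑f) 1 := rfl
  rw [e]
  linear_combination this

lemma prim_has [NeZero N] (f : CuspForm (Gamma0 N) 2) : HasEquivariantPrimitive N f (prim f) :=
  ⟨prim_hasDerivAt (cuspLike f), prim_tendsto (cuspLike f), prim_equivariant f,
    prim_tendsto_smul f⟩

/-- the basic formula for the period map -/
lemma periodMap_eq [NeZero N] (f : CuspForm (Gamma0 N) 2) (γ : Gamma0 N) (z : ℍ) :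
    periodMap N f (Additive.ofMul γ) = prim f ((γ : SL(2, ℤ)) • z) - prim f z := by
  obtain ⟨F₀, h₀, he⟩ := periodMap_def N f (prim_has f)
  have hF : F₀ = prim f := prim_unique h₀.1 (prim_has f).1 h₀.2.1 (prim_has f).2.1
  subst hF
  rw [he, IsEquivariantPrimitive.periodHom_apply, ← IsEquivariantPrimitive.sub_eq_period]

lemma prim_add (f g : CuspForm (Gamma0 N) 2) : prim ⇑(f + g) = prim f + prim g := by
  funext τ
  have h1 : ⇑(f + g) = ⇑f + ⇑g := by
    ext z
    simp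
  simp only [prim, eichlerH, h1, Pi.add_apply]
  exact eichler_add (cuspLike f) (cuspLike g) 1 τ.im_pos

lemma prim_smul (c : ℂ) (f : CuspForm (Gamma0 N) 2) : prim ⇑(c • f) = c • prim f :=
  EI_smul 0 c f

/-- the period map as a linear map -/
noncomputable def periodLin (N : ℕ) [NeZero N] :
    CuspForm (Gamma0 N) 2 →ₗ[ℂ] (Additive (Gamma0 N) →+ ℂ) where
  toFun := periodMap N
  map_add' f g := by
    refine AddMonoidHom.ext fun γ => ?_
    have h1 : periodMap N (f + g) γ = _ := periodMap_eq (f + g) (Additive.toMul γ) UpperHalfPlane.I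
    have h2 : periodMap N f γ = _ := periodMap_eq f (Additive.toMul γ) UpperHalfPlane.I
    have h3 : periodMap N g γ = _ := periodMap_eq g (Additive.toMul γ) UpperHalfPlane.I
    rw [AddMonoidHom.add_apply, h1, h2, h3, prim_add]
    simp only [Pi.add_apply]
    ring
  map_smul' c f := by
    refine AddMonoidHom.ext fun γ => ?_
    have h1 : periodMap N (c • f) γ = _ := periodMap_eq (c • f) (Additive.toMul γ) UpperHalfPlane.I
    have h2 : periodMap N f γ = _ := periodMap_eq f (Additive.toMul γ) UpperHalfPlane.I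
    rw [RingHom.id_apply, AddMonoidHom.smul_apply, h1, h2, prim_smul]
    simp only [Pi.smul_apply, smul_eq_mul]
    ring

lemma periodLin_apply [NeZero N] (f : CuspForm (Gamma0 N) 2) : periodLin N f = periodMap N f := rfl

lemma existsPeriodMapLinear (N : ℕ) [NeZero N] : ExistsPeriodMapLinear N :=
  ⟨periodLin N, fun _ => rfl⟩

/-- explicit formula for `periodHomPair` -/
lemma periodHomPair_apply [NeZero N] (f g : CuspForm (Gamma0 N) 2) (γ : Gamma0 N) :
    periodHomPair N (f, g) (Additive.ofMul γ) =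
      (periodMap N f (Additive.ofMul γ) + periodMap N f (Additive.ofMul (jConjGamma0 N γ))) +
      (periodMap N g (Additive.ofMul γ) - periodMap N g (Additive.ofMul (jConjGamma0 N γ))) := by
  obtain ⟨pml, hpml, he⟩ := periodHomPair_def N (existsPeriodMapLinear N)
  rw [he]
  simp only [LinearMap.coprod_apply, LinearMap.comp_apply, LinearMap.add_apply,
    LinearMap.sub_apply, LinearMap.id_apply, hpml, AddMonoidHom.add_apply,
    AddMonoidHom.sub_apply, charInvolution_apply, toMul_ofMul]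

end Fermat.Agent.S21
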